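-- Statement S23 (row 22): the space of weight two cusp forms on Gamma0(N) is spanned by forms with
-- integral q-expansion. Proof: project S22/S23 (Lagrange interpolation over the cosets of Gamma0(N)
-- with the primitive element Delta(z)^N / Delta(N z), Galois descent and bounded denominators);
-- see Fermat/Agent/S23/*.lean.
import Fermat.Statements.S23
import Fermat.Agent.S23.Bounded

set_option autoImplicit false
open CuspForm

namespace Fermat.Agent.S23

theorem result (N : ℕ) [NeZero N] : CuspForm.HasIntegralStructure N 2 := by
  exact Bounded.hasIntegralStructure N 2

end Fermat.Agent.S23
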