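-- Statement S02: a counterexample to Fermat for a prime p >= 5 yields a Frey package.
-- Proof: divide by the gcd, move the even term to position b using that p is odd,
-- and negate everything if needed to get a = 3 mod 4.
import Fermat.Statements.S02

set_option autoImplicit false
open FreyPackage

namespace Fermat.Agent.S02

/-- Coprime case with `b` even and `a` odd. -/
theorem of_coprime_even (a b c : ℤ) (ha : a ≠ 0) (hb : b ≠ 0) (hc : c ≠ 0) (p : ℕ)
    (pp : p.Prime) (hp5 : 5 ≤ p) (H : a ^ p + b ^ p = c ^ p) (hab : gcd a b = 1)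
    (hb2 : (2 : ℤ) ∣ b) : Nonempty FreyPackage := by
  have hpodd : Odd p := pp.odd_of_ne_two (by omega)
  have ha2 : ¬ (2 : ℤ) ∣ a := by
    intro h
    have : (2 : ℤ) ∣ gcd a b := dvd_gcd h hb2
    rw [hab] at this
    norm_num at this
  have hb2' : (b : ZMod 2) = 0 := (ZMod.intCast_zmod_eq_zero_iff_dvd b 2).2 hb2
  have hmod : a % 4 = 1 ∨ a % 4 = 3 := by omega
  rcases hmod with h1 | h3
  · refine ⟨⟨-a, -b, -c, neg_ne_zero.2 ha, neg_ne_zero.2 hb, neg_ne_zero.2 hc, p, pp, hp5, ?_, ?_, ?_, ?_⟩⟩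
    · rw [hpodd.neg_pow, hpodd.neg_pow, hpodd.neg_pow, ← H]; ring
    · rw [gcd_neg, neg_gcd]; exact hab
    · have : ((-a : ℤ) : ZMod 4) = ((3 : ℤ) : ZMod 4) := by
        rw [ZMod.intCast_eq_intCast_iff_dvd_sub]
        omega
      simpa using this
    · simp [hb2']
  · refine ⟨⟨a, b, c, ha, hb, hc, p, pp, hp5, H, hab, ?_, hb2'⟩⟩
    have : ((a : ℤ) : ZMod 4) = ((3 : ℤ) : ZMod 4) := by
      rw [ZMod.intCast_eq_intCast_iff_dvd_sub]
      omega
    simpa using this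

/-- Coprime case. -/
theorem of_coprime (a b c : ℤ) (ha : a ≠ 0) (hb : b ≠ 0) (hc : c ≠ 0) (p : ℕ)
    (pp : p.Prime) (hp5 : 5 ≤ p) (H : a ^ p + b ^ p = c ^ p) (hab : gcd a b = 1) :
    Nonempty FreyPackage := by
  have hpodd : Odd p := pp.odd_of_ne_two (by omega)
  have hp0 : 0 < p := by omega
  by_cases hb2 : (2 : ℤ) ∣ b
  · exact of_coprime_even a b c ha hb hc p pp hp5 H hab hb2
  by_cases ha2 : (2 : ℤ) ∣ a
  · refine of_coprime_even b a c hb ha hc p pp hp5 (by rw [add_comm]; exact H) ?_ ha2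
    rw [gcd_comm]; exact hab
  · -- both odd, so c is even
    have hc2 : (2 : ℤ) ∣ c := by
      have hao : Odd a := Int.not_even_iff_odd.1 (fun h => ha2 h.two_dvd)
      have hbo : Odd b := Int.not_even_iff_odd.1 (fun h => hb2 h.two_dvd)
      have : Even (c ^ p) := by
        rw [← H]
        exact (hao.pow).add_odd (hbo.pow)
      exact ((Int.even_pow.1 this).1).two_dvd
    refine of_coprime_even a (-c) (-b) ha (neg_ne_zero.2 hc) (neg_ne_zero.2 hb) p pp hp5 ?_ ?_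
      ((dvd_neg).2 hc2)
    · rw [hpodd.neg_pow, hpodd.neg_pow, ← H]; ring
    · rw [gcd_neg, ← FreyPackage.gcdab_eq_gcdac hp0 H]; exact hab

theorem result (a b c : ℤ) (ha : a ≠ 0) (hb : b ≠ 0) (hc : c ≠ 0) (p : ℕ) (pp : p.Prime) (hp5 : 5 ≤ p) (H : a ^ p + b ^ p = c ^ p) : Nonempty FreyPackage := by
  have hp0 : p ≠ 0 := by omega
  -- divide out by the gcd
  obtain ⟨a', b', hcop, ha', hb'⟩ : ∃ a' b' : ℤ, IsCoprime a' b' ∧ a = a' * (Int.gcd a b : ℤ) ∧ b = b' * (Int.gcd a b : ℤ) := by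
    have hg : 0 < Int.gcd a b := Int.gcd_pos_of_ne_zero_left b ha
    obtain ⟨a', b', h1, h2, h3⟩ := Int.exists_gcd_one hg
    exact ⟨a', b', Int.isCoprime_iff_gcd_eq_one.2 h1, h2, h3⟩
  set d : ℤ := (Int.gcd a b : ℤ) with hd
  have hd0 : d ≠ 0 := by
    intro h
    rw [h, mul_zero] at ha'
    exact ha ha'
  have hdc : d ∣ c := by
    rw [← Int.pow_dvd_pow_iff hp0, ← H, ha', hb', mul_pow, mul_pow]
    exact dvd_add (dvd_mul_left _ _) (dvd_mul_left _ _)
  obtain ⟨c', hc'⟩ := hdc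
  have ha'0 : a' ≠ 0 := by
    intro h; rw [h, zero_mul] at ha'; exact ha ha'
  have hb'0 : b' ≠ 0 := by
    intro h; rw [h, zero_mul] at hb'; exact hb hb'
  have hc'0 : c' ≠ 0 := by
    intro h; rw [h, mul_zero] at hc'; exact hc hc'
  have H' : a' ^ p + b' ^ p = c' ^ p := by
    have hdp : d ^ p ≠ 0 := pow_ne_zero _ hd0
    apply mul_right_cancel₀ hdp
    rw [add_mul, ← mul_pow, ← mul_pow, ← mul_pow, ← ha', ← hb', mul_comm c' d, ← hc']
    exact H
  refine of_coprime a' b' c' ha'0 hb'0 hc'0 p pp hp5 H' ?_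
  have := Int.isCoprime_iff_gcd_eq_one.1 hcop
  change ((Int.gcd a' b' : ℕ) : ℤ) = 1
  exact_mod_cast this

end Fermat.Agent.S02
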