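-- Statement S07: every weight-2 cusp form of level Gamma0(2) is zero.
-- Proof: Sturm bound from the Prelude, index of Gamma0(2) is at most 3, and the constant
-- coefficient of a cusp form vanishes.
import Fermat.Statements.S07
import Fermat.Prelude.Thm_ModularForm_sturm_bound_Gamma0

set_option autoImplicit false
open WeierstrassCurve WeierstrassCurve.Affine WeierstrassCurve.Affine.Point
open CuspForm ModularFormClass UpperHalfPlane
open ModularForm

namespace Fermat.Agent.S07

theorem card_SL2_ZMod2 : Nat.card (Matrix.SpecialLinearGroup (Fin 2) (ZMod 2)) = 6 := by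
  rw [Nat.card_eq_fintype_card]
  decide

open CongruenceSubgroup in
theorem index_Gamma_two_le : (Gamma 2).index ≤ 6 := by
  unfold Gamma
  rw [Subgroup.index_ker]
  calc Nat.card (Matrix.SpecialLinearGroup.map (Int.castRingHom (ZMod 2))).range
      ≤ Nat.card (Matrix.SpecialLinearGroup (Fin 2) (ZMod 2)) :=
        Nat.card_le_card_of_injective _ Subtype.val_injective
    _ = 6 := card_SL2_ZMod2

open CongruenceSubgroup in
theorem Gamma_two_le_Gamma0_two : Gamma 2 ≤ Gamma0 2 := by
  intro γ hγ
  rw [Gamma_mem] at hγ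
  rw [Gamma0_mem]
  exact hγ.2.2.1

open CongruenceSubgroup in
theorem index_Gamma0_two_le : (Gamma0 2).index ≤ 3 := by
  have h1 := Subgroup.relIndex_mul_index Gamma_two_le_Gamma0_two
  have h2 := index_Gamma_two_le
  have hT : ModularGroup.T ∈ Gamma0 2 := by
    rw [Gamma0_mem]; simp [ModularGroup.T]
  have hT' : ModularGroup.T ∉ Gamma 2 := by
    rw [Gamma_mem]; simp [ModularGroup.T]
  have h3 : (Gamma 2).relIndex (Gamma0 2) ≠ 1 := by
    intro h
    rw [Subgroup.relIndex_eq_one] at h
    exact hT' (h hT)
  have h4 : (Gamma 2).relIndex (Gamma0 2) ≠ 0 := by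
    intro h
    rw [h, zero_mul] at h1
    exact (Gamma 2).index_ne_zero_of_finite h1.symm
  have h5 : 2 ≤ (Gamma 2).relIndex (Gamma0 2) := by omega
  nlinarith

theorem result (f : CuspForm (CongruenceSubgroup.Gamma0 2) 2) : f = 0 := by
  have hper : (1 : ℝ) ∈ (Subgroup.map (Matrix.SpecialLinearGroup.mapGL ℝ)
      (CongruenceSubgroup.Gamma0 2)).strictPeriods := by
    simp [CongruenceSubgroup.strictPeriods_Gamma0]
  have hidx := index_Gamma0_two_le
  have hM : (f : ModularForm (CongruenceSubgroup.Gamma0 2) 2) = 0 := by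
    apply ModularForm.sturm_bound_Gamma0 2
    intro n hn
    have hn0 : n = 0 := by
      have : ((2 : ℤ) * ((CongruenceSubgroup.Gamma0 2).index : ℤ)).toNat / 12 = 0 := by
        omega
      omega
    subst hn0
    exact CuspFormClass.qExpansion_coeff_zero f one_pos hper
  ext z
  have := DFunLike.congr_fun hM z
  simpa using this

end Fermat.Agent.S07
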