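-- Statement S08: every weight-2 cusp form of level Gamma0(1) is zero.
-- Proof: Sturm bound from the Prelude, index of Gamma0(1) is 1, and the constant
-- coefficient of a cusp form vanishes.
import Fermat.Statements.S08
import Fermat.Prelude.Thm_ModularForm_sturm_bound_Gamma0

set_option autoImplicit false
open WeierstrassCurve WeierstrassCurve.Affine WeierstrassCurve.Affine.Point
open CuspForm ModularFormClass UpperHalfPlane
open ModularForm

namespace Fermat.Agent.S08

theorem index_Gamma0_one : (CongruenceSubgroup.Gamma0 1).index = 1 := by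
  rw [Subgroup.index_eq_one]
  ext γ
  simp only [CongruenceSubgroup.Gamma0_mem, Subgroup.mem_top, iff_true]
  exact Subsingleton.elim _ _

theorem result (f : CuspForm (CongruenceSubgroup.Gamma0 1) 2) : f = 0 := by
  have hper : (1 : ℝ) ∈ (Subgroup.map (Matrix.SpecialLinearGroup.mapGL ℝ)
      (CongruenceSubgroup.Gamma0 1)).strictPeriods := by
    simp [CongruenceSubgroup.strictPeriods_Gamma0]
  have hM : (f : ModularForm (CongruenceSubgroup.Gamma0 1) 2) = 0 := by
    apply ModularForm.sturm_bound_Gamma0 1
    intro n hn
    have hn0 : n = 0 := by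
      rw [index_Gamma0_one] at hn
      have h0 : ((2 : ℤ) * ((1 : ℕ) : ℤ)).toNat / 12 = 0 := by decide
      omega
    subst hn0
    exact CuspFormClass.qExpansion_coeff_zero f one_pos hper
  ext z
  have := DFunLike.congr_fun hM z
  simpa using this

end Fermat.Agent.S08
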