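import Fermat.Statements.S11
import Fermat.Agent.Lib.Kummer.FLTRegular

set_option autoImplicit false
open WeierstrassCurve WeierstrassCurve.Affine WeierstrassCurve.Affine.Point
open CuspForm ModularFormClass UpperHalfPlane
open FreyPackage

namespace Fermat.Agent.S11

/-- There is no Frey package with exponent `11`: Fermat's Last Theorem for the regular prime
`11` (Kummer). -/
theorem no_freyPackage_eleven (P : FreyPackage) (hp : P.p = 11) : False := by
  have h := P.hFLT
  rw [hp] at h
  have hab : IsCoprime P.a P.b := by
    rw [Int.isCoprime_iff_gcd_eq_one]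
    have h2 : ((Int.gcd P.a P.b : ℕ) : ℤ) = 1 := P.hgcdab
    exact_mod_cast h2
  exact Fermat.Agent.Lib.Kummer.FLTRegular.flt_eleven P.a P.b P.c P.ha0 P.hb0 P.hc0 hab h

theorem result (P : FreyPackage) (hp : P.p = 11) : ¬ HasGaloisStableCofixedLine (K := AlgebraicClosure ℚ) ℚ P.freyCurve P.p := by
  exact (no_freyPackage_eleven P hp).elim

end Fermat.Agent.S11
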