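-- Statement S13: a reducible mod-p Galois representation of the Frey curve has a Galois stable
-- cofixed line.  Assembly of the P-S13 blocks (blueprint: team note 786).
import Fermat.Statements.S13
import Fermat.Agent.S13.Global
import Fermat.Agent.S13.MinkowskiGlue
import Fermat.Agent.S13.LocalPMain
import Fermat.Agent.S13.LocalTwo

set_option autoImplicit false
open WeierstrassCurve WeierstrassCurve.Affine WeierstrassCurve.Affine.Point
open CuspForm ModularFormClass UpperHalfPlane
open FreyPackage

namespace Fermat.Agent.S13

theorem result (P : FreyPackage) (hred : ¬ GaloisRepIsIrreducible (K := AlgebraicClosure ℚ) ℚ P.freyCurve P.p) : HasGaloisStableCofixedLine (K := AlgebraicClosure ℚ) ℚ P.freyCurve P.p :=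
  s13_of_blocks P (localTwo P) (noFixedPoint P) (LocalP.localP P) MinkowskiGlue.minkowski
    MinkowskiGlue.transOver hred

end Fermat.Agent.S13
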