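-- Statement S14 (row 13): vanishing of the relevant Ext group (Herbrand--Ribet type input), from
-- Artin reciprocity for unramified cyclic extensions of prime degree (`Lib/CFT/Unram`, S14 fast
-- track) and the Jacobi-sum Stickelberger relation for primes of degree one (`Lib/CFT/S14`).
import Fermat.Statements.S14
import Fermat.Agent.Lib.CFT.S14.Conditional
import Fermat.Agent.Lib.CFT.Unram.Master

set_option autoImplicit false
open ExtCitation

namespace Fermat.Agent.S14

theorem result {p : ℕ} [Fact p.Prime] (h3 : 3 ≤ p) :
    ExtCitation.ExtVanishingCts p :=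
  Fermat.Agent.Lib.CFT.S14.extVanishingCts_of_artin h3
    (Fermat.Agent.Lib.CFT.Unram.artinUnramifiedCyclic p)

end Fermat.Agent.S14
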