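-- Statement S16 (P-S16): the index of the Eisenstein ideal in the Hecke algebra of level `p`.
-- Proof: `S16/FinalU2.s16_of_u2` (helper16: all blocks except U2) + block U2
-- `S16/Two/Final.noUnitForm_two` (helper15 and the P-S16 team).
import Fermat.Statements.S16
import Fermat.Agent.S16.FinalU2
import Fermat.Agent.S16.Two.Final

set_option autoImplicit false
open ModularCurve CuspForm
open ModularCurve

namespace Fermat.Agent.S16

theorem result
    (p : ℕ) [Fact p.Prime] :
    Nat.card (↥(heckeLatticeAlgebra p ∅) ⧸
        Ideal.map ((latticeRestrictHom p ∅).toRingHom.comp (heckeEvalForms p 2))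
          (eisensteinIdeal p)) =
      eisensteinNumerator p := by
  exact s16_of_u2 p (fun h5 => Two.noUnitForm_two p h5)

end Fermat.Agent.S16
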