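-- Statement S19 (finite flat model of J0(p)[l^k] over Z_(l), l not dividing p).
-- Proof: project P-S19 under `Fermat/Agent/S19x` (blocks A geometry `Geo/*`, B algebra `Alg/*`,
-- final assembly `Final/*`): local chart of the group law on the kernel of reduction at a good
-- level (Residual Theorem with multiplicities), function-level Hopf order, descent to Z_(l),
-- pull-back along J0(p) -> J0(M), M = good level.
import Fermat.Statements.S19
import Fermat.Agent.S19x.Final.S19OfLeaves
import Fermat.Agent.S19x.Geo.RedIfaceL1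
import Fermat.Agent.S19x.Geo.ResidualTargetDone

set_option autoImplicit false
open ModularCurve
open ModularCurve

namespace Fermat.Agent.S19

theorem result
    (p : ℕ) [NeZero p] (ℓ : ℕ) [Fact ℓ.Prime] (hℓp : ¬ ℓ ∣ p) (k : ℕ) :
    ∃ (H : Type) (_ : CommRing H) (_ : HopfAlgebra (GaloisRep.ratLocalizedAt ℓ) H),
      Module.Finite (GaloisRep.ratLocalizedAt ℓ) H ∧ Module.Flat (GaloisRep.ratLocalizedAt ℓ) H ∧
      Coalgebra.IsCocomm (GaloisRep.ratLocalizedAt ℓ) H ∧
      ∃ e : WithConv (H →ₐ[GaloisRep.ratLocalizedAt ℓ] AlgebraicClosure ℚ) ≃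
          ↥(Submodule.torsionBy ℤ (JZero p) ((ℓ : ℤ) ^ k)),
        (∀ f g, e (f * g) = e f + e g) ∧
        ∀ (σ : AlgebraicClosure ℚ ≃ₐ[ℚ] AlgebraicClosure ℚ)
          (f g : WithConv (H →ₐ[GaloisRep.ratLocalizedAt ℓ] AlgebraicClosure ℚ)),
          (∀ h : H, g h = σ (f h)) → ((e g : JZero p)) = σ • (e f : JZero p) :=
  Fermat.Agent.S19x.Final.s19_of_leaves
    Fermat.Agent.S19x.Geo.RedIfaceL1.l1Target
    Fermat.Agent.S19x.Geo.ResidualTargetDone.residualTarget p ℓ hℓp k

end Fermat.Agent.S19
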