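import Fermat.Statements.S28
import Fermat.Agent.S28.Assembly
import Fermat.Agent.S28.Crux.Final
import Fermat.Agent.S28.ModEq.Final
import Fermat.Agent.S28.Hauptmodul.H2Haupt
import Fermat.Agent.S28.Hauptmodul.Hauptmodul3
import Fermat.Agent.S28.Tower.Hind
import Fermat.Agent.S28.Tower.SpanConvert
import Fermat.Agent.S28.Tower.CharZero
import Fermat.Agent.S28.Tower.CharZeroIntegral
import Fermat.Agent.S28.Tower.BAdapter

set_option autoImplicit false
open AlgebraicGeometry CategoryTheory CategoryTheory.Limits ModularCurve ModularCurve.IgusaScheme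
noncomputable section
set_option autoImplicit false
open ModularCurve ModularCurve.IgusaScheme

namespace Fermat.Agent.S28

open Polynomial Tower in
/-- the family of modular polynomials. -/
def glueΦ (p : ℕ) : ℤ[X][X] :=
  if h : p.Prime then (haveI : NeZero p := ⟨h.ne_zero⟩; (ModEq.modularEquation p h).Φ) else 0

open Polynomial Tower in
theorem glueΦ_spec {p : ℕ} (hp : p.Prime) :
    haveI : NeZero p := ⟨hp.ne_zero⟩
    glueΦ p = (ModEq.modularEquation p hp).Φ := by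
  unfold glueΦ
  rw [dif_pos hp]

open Polynomial Tower in
theorem glue_finiteChartData (N : ℕ) [NeZero N] (ℓ : ℕ) [Fact ℓ.Prime] (hℓN : ¬ ℓ ∣ N) :
    Assembly.FiniteChartData N ℓ := by
  have hN0 : N ≠ 0 := NeZero.ne N
  have hℓ : ℓ.Prime := Fact.out
  -- characteristic `ℓ` side
  have hcrux : ∀ (p : ℕ) [NeZero p], p.Prime → p ≠ ℓ →
      qExpand (AlgebraicClosure (ZMod ℓ)) p (jqModC (AlgebraicClosure (ZMod ℓ))) ∉
        IntermediateField.adjoin (AlgebraicClosure (ZMod ℓ))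
          {jqModC (AlgebraicClosure (ZMod ℓ))} := fun p _ hp hpℓ =>
    qExpand_jqModC_not_mem_adjoin ℓ p hp hpℓ (fun q _ hq => ModEq.modularEquation q hq)
      hauptmodul2 hauptmodul3
  have hΦl : ∀ p, p.Prime → p ∣ N → (glueΦ p).Monic ∧ (glueΦ p).natDegree = p + 1 ∧
      IsModEq (glueΦ p) p (AlgebraicClosure (ZMod ℓ)) ∧
      Irreducible (polyAt (glueΦ p) (gen₀ (AlgebraicClosure (ZMod ℓ)) N)) := by
    intro p hp hpN
    haveI : NeZero p := ⟨hp.ne_zero⟩
    have hpℓ : p ≠ ℓ := by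
      rintro rfl
      exact hℓN hpN
    have hpk : ((p : ℕ) : AlgebraicClosure (ZMod ℓ)) ≠ 0 := by
      intro h0
      have := (CharP.cast_eq_zero_iff (AlgebraicClosure (ZMod ℓ)) ℓ p).mp h0
      exact hpℓ ((Nat.prime_dvd_prime_iff_eq hℓ hp).mp this).symm
    obtain ⟨z, hz⟩ := exists_primitiveRoot_unit (k := AlgebraicClosure (ZMod ℓ)) p hpk
    rw [glueΦ_spec hp]
    exact ⟨(ModEq.modularEquation p hp).monic, (ModEq.modularEquation p hp).natDegree_eq,
      isModEq_of_modularEquation _ _, irreducible_polyAt_gen₀ _ z hz hN0 (hcrux p hp hpℓ)⟩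
  -- characteristic `0` side
  have hΦ0 : ∀ p, p.Prime → p ∣ N → (glueΦ p).Monic ∧ (glueΦ p).natDegree = p + 1 ∧
      IsModEq (glueΦ p) p ℂ := by
    intro p hp _
    haveI : NeZero p := ⟨hp.ne_zero⟩
    rw [glueΦ_spec hp]
    exact ⟨(ModEq.modularEquation p hp).monic, (ModEq.modularEquation p hp).natDegree_eq,
      isModEq_of_modularEquation _ _⟩
  have hroots : ∀ p, p.Prime → p ∣ N → ∃ ζ : ℂˣ, IsPrimitiveRoot ζ p := by
    intro p hp _
    have hpC : ((p : ℕ) : ℂ) ≠ 0 := by exact_mod_cast hp.ne_zero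
    exact exists_primitiveRoot_unit (k := ℂ) p hpC
  refine ⟨box N, inferInstance, inferInstance,
    fun μ => ⟨ev ℚ (μ : ℕ →₀ ℕ), ev_mem_full N μ.2⟩,
    fun μ => ev ↥(GaloisRep.ratLocalizedAt ℓ) (μ : ℕ →₀ ℕ), ?_, ?_, ?_, ?_⟩
  · intro μ
    show embLS ℓ (ev _ _) = ev ℚ _
    rw [embLS, coeffMap_ev]
  · intro μ
    exact ev_mem_chartAlg N ℓ glueΦ (fun p hp hpN => ⟨(hΦ0 p hp hpN).1, (hΦ0 p hp hpN).2.2⟩)
      hroots μ.2
  · exact hspan_of_full_le_span N ℓ (fun μ => ev_mem_full N μ.2)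
      (full_le_span hN0 glueΦ hΦ0 hroots)
  · exact hind_final ℓ hℓN glueΦ hΦl

set_option maxHeartbeats 4000000 in
set_option synthInstance.maxHeartbeats 400000 in
theorem result
    (N : ℕ) [NeZero N] (ℓ : ℕ) [Fact ℓ.Prime] (hℓN : ¬ ℓ ∣ N)
    (K : Type) [Field K] [CharP K ℓ] [Algebra ↥(GaloisRep.ratLocalizedAt ℓ) K] :
    IsIntegral ↑(pullback (igusaTo N ℓ)
      (Spec.map (CommRingCat.ofHom (algebraMap ↥(GaloisRep.ratLocalizedAt ℓ) K)))) := by
  exact Assembly.igusa_pullback_isIntegral_of_finiteChartData N ℓ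
    (glue_finiteChartData N ℓ hℓN) K

end Fermat.Agent.S28
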