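-- Statement S33 (row 32): ordinarity at `p ‖ N` of the Hecke Galois representation from residual
-- ordinarity.  Proof (P-S33, blueprint v2): the consumer bridge `S33x/Consumer/Final.s33_of_target`
-- (T-gluing of the levels `J₀(N)[p ^ m]`) applied to the geometric target `QOrdTarget`, which is
-- `S33x/Cech/InstQbCtx.qOrdTarget_of_chartsMqGen` fed with the generic Cech assembly
-- `S33x/Cech/Inst.chartsMq_gen` (Layers 1, 2, H1, W) and closed by Layer 3
-- (`S33x/L3/AssembleDone.noTrivOfCharts`, inside `InstQb.qOrdTarget_of_gen`).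
import Fermat.Statements.S33
import Fermat.Agent.S33x.Consumer.Final
import Fermat.Agent.S33x.Cech.Inst
import Fermat.Agent.S33x.Cech.InstQbCtx

set_option autoImplicit false
variable {p : ℕ} {N : ℕ} [NeZero N] {S : Finset ℕ}
  {𝒪 : Type} [CommRing 𝒪] [IsDomain 𝒪] [IsDiscreteValuationRing 𝒪]
  [IsAdicComplete (IsLocalRing.maximalIdeal 𝒪) 𝒪]
  {θ : CuspForm.heckeAlgebra N 2 (↑S : Set ℕ) →+* IsLocalRing.ResidueField 𝒪}
  {T : Type} [CommRing T] [IsLocalRing T] [IsNoetherianRing T]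
  [IsAdicComplete (IsLocalRing.maximalIdeal T) T] [Algebra 𝒪 T] [IsLocalHom (algebraMap 𝒪 T)]
  [Module.Finite 𝒪 T] [Module.Free 𝒪 T]
open CuspForm CuspForm.HeckeGaloisRepDatum

namespace Fermat.Agent.S33

theorem result
    [Finite (IsLocalRing.ResidueField 𝒪)] [CharZero 𝒪]
    (hp : p.Prime) (hp2 : p ≠ 2) (hp𝒪 : (p : 𝒪) ∈ IsLocalRing.maximalIdeal 𝒪) (hN : p ∣ N ∧ ¬ p ^ 2 ∣ N)
    (hNS : ∀ q : ℕ, q.Prime → q ∣ N → q ∈ S)
    (H : CuspForm.HeckeGaloisRepDatum N (↑S : Set ℕ) 𝒪 θ T)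
    (hres : (GaloisRepAdic.ofResidualGaloisRep H.ρ.residual).IsOrdinaryAt p) :
    H.ρ.IsOrdinaryAt p :=
  Fermat.Agent.S33x.Consumer.Final.s33_of_target
    (Fermat.Agent.S33x.Cech.InstQbCtx.qOrdTarget_of_chartsMqGen
      (fun H hA _ x hx Hx hxk hY hD hF n _ =>
        Fermat.Agent.S33x.Cech.Inst.chartsMq_gen H hA x hx Hx hxk hY hD hF n))
    hp hp2 hp𝒪 hN hNS H hres

end Fermat.Agent.S33
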