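import Fermat.Statements.S48
import Fermat.Agent.S48x.Top
import Fermat.Agent.S48x.G1.InputsInst
import Fermat.Agent.S48x.Red1.Gamma1Final

set_option autoImplicit false
open CongruenceSubgroup
open scoped MatrixGroups
local notation "Γℚ" => (AlgebraicClosure ℚ ≃ₐ[ℚ] AlgebraicClosure ℚ)
open DeligneSerre

namespace Fermat.Agent.S48

/-- The `Γ₁`-gateway statement, from the landed layers (route 1: `G1/InputsInst.g1_main_of_red` +
layer (c) `Red1/Gamma1Final`). -/
theorem g1Statement : Fermat.Agent.S48x.DS2.G1Statement := by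
  intro M _ h49 h8 ℓ hℓ hℓM
  refine Fermat.Agent.S48x.G1.InputsInst.g1_main_of_red h8 hℓ ⟨?_, ?_⟩
  · intro q hq hqM A hA
    exact Fermat.Agent.S48x.Red1.Gamma1Final.gaussNormalisable_gamma1Field A h8 hq hqM hA
  · intro n q hq hqM A hA
    refine Fermat.Agent.S48x.Red1.Gamma1Final.kummerRedInj_gamma1Field A h8 h49 hq hqM hA ?_
    intro hdvd
    have h1 : q ∣ ℓ := hq.dvd_of_dvd_pow hdvd
    have h2 : q = ℓ := (Nat.prime_dvd_prime_iff_eq hq hℓ).mp h1
    exact hqM (h2 ▸ hℓM)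

theorem result
    (N : ℕ) [NeZero N] (ε : DirichletCharacter ℂ N) (f : CuspForm (Gamma1 N) 1)
    (hf₁ : ModularFormClass.qCoeff f 1 = 1)
    (hT : ∀ p : ℕ, p.Prime → ¬ p ∣ N → ∀ n : ℕ,
        ModularFormClass.qCoeff f (p * n) +
            ε (p : ZMod N) * (if p ∣ n then ModularFormClass.qCoeff f (n / p) else 0) =
          ModularFormClass.qCoeff f p * ModularFormClass.qCoeff f n) :
    ∃ ρ : Γℚ →* GL (Fin 2) ℂ, GaloisFactorsThroughFiniteLevel ρ ∧
      (Deformation.matrixRepresentation ρ).IsIrreducible ∧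
      ∀ p : ℕ, p.Prime → ¬ p ∣ N →
        ∀ A : ValuationSubring (AlgebraicClosure ℚ), A.LiesOverPrime p →
          (∀ σ ∈ A.inertiaSubgroupIn ℚ, ρ σ = 1) ∧
          ∀ σ : Γℚ, A.IsFrobeniusAt σ p →
            ((ρ σ : GL (Fin 2) ℂ) : Matrix (Fin 2) (Fin 2) ℂ).trace = ModularFormClass.qCoeff f p ∧
            ((ρ σ : GL (Fin 2) ℂ) : Matrix (Fin 2) (Fin 2) ℂ).det = ε (p : ZMod N) :=
  Fermat.Agent.S48x.s48_of_G1Statement g1Statement N ε f hf₁ hT

end Fermat.Agent.S48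

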