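import Fermat.Statements.S49
import Fermat.Prelude.Thm_CuspForm_intLattice_fg
import Fermat.Prelude.Thm_CuspForm_mem_intLattice_of_mem_heckeAlgebra
import Fermat.Agent.S49.DSLift
import Fermat.Agent.S49.Eigenform
import Fermat.Agent.S49.Realize

set_option autoImplicit false
open CuspForm EisensteinWeightOne CongruenceSubgroup ModularFormClass
open FLT FLT.AbstractIntegralStructure

namespace Fermat.Agent.S49

open Fermat.Agent.S49.Realize in
theorem result
    {N : ℕ} [NeZero N] (h : CuspForm.HasIntegralBasis N) {a : ℕ → ℤ}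
    (heig : FormalHecke.IsEigensystem
      (fun ℓ => if ℓ ∣ N then 0 else ((chiNegThree ℓ : ℤ) : ℤ)) a)
    (hreal : CuspForm.IsLatticeRealized N a) :
    ∃ (f : CuspForm (Gamma0 N) 2) (_ : f.IsNormalizedEigenform)
      (𝔪' : Ideal (integralClosure ℤ ℂ)), 𝔪'.IsMaximal ∧
      ((3 : ℕ) : integralClosure ℤ ℂ) ∈ 𝔪' ∧
      ∀ (ℓ : ℕ) (_ : ℓ.Prime) (_ : ¬ ℓ ∣ N),
        ∃ c : integralClosure ℤ ℂ, (c : ℂ) = ModularFormClass.qCoeff f ℓ ∧
          c - (a ℓ : integralClosure ℤ ℂ) ∈ 𝔪' := by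
  classical
  -- the lattice
  have hLfg : (CuspForm.intLattice N 2).FG := CuspForm.intLattice_fg N 2
  have hsub : qIntegralSet N ⊆ (CuspForm.intLattice N 2 : Set (CuspForm (Gamma0 N) 2)) := by
    intro f hf
    rw [SetLike.mem_coe, mem_intLattice_iff]
    intro n
    obtain ⟨m, hm⟩ := Subring.mem_bot.1 (hf n)
    exact ⟨m, hm.symm⟩
  have hLspan : Submodule.span ℂ
      (CuspForm.intLattice N 2 : Set (CuspForm (Gamma0 N) 2)) = ⊤ := by
    rw [eq_top_iff, ← h]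
    exact Submodule.span_mono hsub
  -- the operators, indexed by primes
  let T : {l : ℕ // l.Prime} → Module.End ℂ (CuspForm (Gamma0 N) 2) := fun i =>
    if hi : i.1 ∣ N then CuspForm.heckeULin 2 hi else CuspForm.heckeTLin 2 i.2 hi
  have hTgen : ∀ i, T i ∈ CuspForm.heckeGenerators N 2 (∅ : Set ℕ) := by
    intro i
    by_cases hi : i.1 ∣ N
    · simp only [T, dif_pos hi]
      exact CuspForm.heckeULin_mem_heckeGenerators i.2 hi (Set.notMem_empty _)
    · simp only [T, dif_neg hi]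
      exact CuspForm.heckeTLin_mem_heckeGenerators i.2 hi (Set.notMem_empty _)
  have hcomm : ∀ i j, Commute (T i) (T j) := fun i j =>
    CuspForm.commute_of_mem_heckeGenerators (hTgen i) (hTgen j)
  have hTL : ∀ i, ∀ x ∈ CuspForm.intLattice N 2, T i x ∈ CuspForm.intLattice N 2 := fun i x hx =>
    CuspForm.mem_intLattice_of_mem_heckeAlgebra (by norm_num)
      (Algebra.subset_adjoin (hTgen i)) hx
  -- the realising form
  obtain ⟨g, af, haf, h3⟩ := exists_realizing_form hreal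
  have hgL : g ∈ CuspForm.intLattice N 2 := mem_intLattice_of_coeff haf
  have hg : ¬ ∃ y ∈ CuspForm.intLattice N 2, g = ((3 : ℕ) : ℤ) • y := by
    rintro ⟨y, hy, rfl⟩
    exact not_isThreeDiv_self heig haf h3 (isThreeDiv_zsmul_three hy)
  have ha : ∀ i : {l : ℕ // l.Prime}, ∃ y ∈ CuspForm.intLattice N 2,
      T i g - a i.1 • g = ((3 : ℕ) : ℤ) • y := by
    intro i
    by_cases hi : i.1 ∣ N
    · simp only [T, dif_pos hi]
      exact (isThreeDiv_heckeU_sub heig haf h3 i.2 hi).exists_eq_zsmul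
    · simp only [T, dif_neg hi]
      exact (isThreeDiv_heckeT_sub heig haf h3 i.2 hi).exists_eq_zsmul
  obtain ⟨v, 𝔪, c, hv0, h𝔪, h3𝔪, hc⟩ :=
    DSLift.exists_eigenvector_lift (CuspForm.intLattice N 2) hLfg hLspan T hcomm hTL 3
      Nat.prime_three g hgL hg (fun i => a i.1) ha
  -- normalise
  let lam : ℕ → ℂ := fun l => if hl : l.Prime then ((c ⟨l, hl⟩ : integralClosure ℤ ℂ) : ℂ) else 0
  have hTv : ∀ (ℓ : ℕ) (hℓ : ℓ.Prime) (hℓN : ¬ ℓ ∣ N),
      CuspForm.heckeTLin 2 hℓ hℓN v = lam ℓ • v := by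
    intro ℓ hℓ hℓN
    have := (hc ⟨ℓ, hℓ⟩).1
    simp only [T, dif_neg hℓN] at this
    simp only [lam, dif_pos hℓ]
    exact this
  have hUv : ∀ (q : ℕ) (_ : q.Prime) (hqN : q ∣ N), CuspForm.heckeULin 2 hqN v = lam q • v := by
    intro q hq hqN
    have := (hc ⟨q, hq⟩).1
    simp only [T, dif_pos hqN] at this
    simp only [lam, dif_pos hq]
    exact this
  obtain ⟨f, hf, hfl⟩ := Eigenform.exists_normalizedEigenform_of_eigenvector v hv0 lam hTv hUv
  refine ⟨f, hf, 𝔪, h𝔪, h3𝔪, fun ℓ hℓ _ => ⟨c ⟨ℓ, hℓ⟩, ?_, (hc ⟨ℓ, hℓ⟩).2⟩⟩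
  rw [hfl ℓ hℓ]
  simp only [lam, dif_pos hℓ]

end Fermat.Agent.S49
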