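-- Statement S51: a semistable integral Weierstrass curve has irreducible mod 3 or mod 5
-- representation. Assembly of the pieces in Fermat/Agent/S51/.
import Fermat.Statements.S51
import Fermat.Agent.S51.Three
import Fermat.Agent.S51.FiveGalois
import Fermat.Agent.S51.RankZero15
import Fermat.Agent.S51.X015Maps
import Fermat.Agent.S51.Final

set_option autoImplicit false
open WeierstrassCurve WeierstrassCurve.Affine WeierstrassCurve.Affine.Point
open CuspForm ModularFormClass UpperHalfPlane
open WeierstrassCurve

namespace Fermat.Agent.S51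

theorem result (W : WeierstrassCurve ℤ) (hΔ : W.Δ ≠ 0) (hW : W.IsSemistableModel) : W.ModRepIsIrreducible 3 ∨ W.ModRepIsIrreducible 5 := by
  by_contra hcon
  rw [not_or] at hcon
  obtain ⟨h3, h5⟩ := hcon
  obtain ⟨t, ht0, ht⟩ := Three.exists_t_of_reducible_three W hΔ h3
  obtain ⟨s, hs0, hs⟩ := Five.exists_s_of_reducible_five W hΔ h5
  have hΔQ : (W.Δ : ℚ) ≠ 0 := by exact_mod_cast hΔ
  have hF : (t + 27) * (t + 3) ^ 3 * s = (s ^ 2 + 10 * s + 5) ^ 3 * t := by
    apply mul_left_cancel₀ hΔQ
    linear_combination s * (-ht) + t * hs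
  exact Final.false_of_params W hW s
    (X015.x015_rational_of RankZero.rat_points_15a t s ht0 hs0 hF) hs

end Fermat.Agent.S51
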