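-- Statement S52 (row 46): the 3-5 switch.
import Fermat.Statements.S52
import Fermat.Agent.S52.Main
import Fermat.Agent.S52.FamilyAux

set_option autoImplicit false
open WeierstrassCurve WeierstrassCurve.Affine WeierstrassCurve.Affine.Point
open CuspForm ModularFormClass UpperHalfPlane
open WeierstrassCurve

namespace Fermat.Agent.S52

theorem result (W : WeierstrassCurve ℤ) (hΔ : W.Δ ≠ 0) (hW : W.IsSemistableModel) (h5 : W.ModRepIsIrreducible 5) : ∃ W' : WeierstrassCurve ℤ, W'.Δ ≠ 0 ∧ W'.IsSemistableModel ∧ W'.ModRepIsIrreducible 3 ∧ ∀ ℓ : ℕ, ℓ.Prime → W.IsGoodPrimeFor ℓ → W'.IsGoodPrimeFor ℓ → ℓ ≠ 5 → (5 : ℤ) ∣ (W'.apOfModel ℓ - W.apOfModel ℓ) := by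
  refine Main.goal_of_familyAux W hΔ hW (fun z0 w0 hK hGK => ?_)
  obtain ⟨ζ, hζ⟩ := GaloisParam.exists_isZeta5 (AlgebraicClosure ℚ)
  obtain ⟨h4, h6⟩ := Model.c4c6NeZero W hΔ hW
  have h4' : ((W.c₄ : ℤ) : AlgebraicClosure ℚ) ≠ 0 := by exact_mod_cast h4
  have h6' : ((W.c₆ : ℤ) : AlgebraicClosure ℚ) ≠ 0 := by exact_mod_cast h6
  refine FamilyAux.familyAux W hΔ hW h5 hK hζ hGK (fun h0 σ => ?_)
  obtain ⟨k, p, q, r, s, -, hσζ, hdet, hact⟩ :=
    Galois.exists_det_action (hζ := hζ) (GaloisParam.kleinAdm_S hζ) h0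
      (mul_ne_zero (by norm_num) h4') (mul_ne_zero (by norm_num) h6')
      (fun τ => by rw [map_mul, map_neg, map_ofNat, map_intCast])
      (fun τ => by rw [map_mul, map_neg, map_ofNat, map_intCast]) σ
  exact ⟨k, p, q, r, s, hσζ, hdet, hact⟩

end Fermat.Agent.S52
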