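import Fermat.Statements.S53
import Fermat.Agent.S53.RigidDataExists
import Fermat.Agent.S53.TangentGood
import Fermat.Agent.S53.GoodGlue

set_option autoImplicit false
set_option autoImplicit false
open GaloisRep

namespace Fermat.Agent.S53

theorem result
    (𝒪 : Type) [CommRing 𝒪] [IsDomain 𝒪] [IsDiscreteValuationRing 𝒪]
    [IsAdicComplete (IsLocalRing.maximalIdeal 𝒪) 𝒪] [Finite (IsLocalRing.ResidueField 𝒪)]
    (ρbar : ResidualGaloisRep (IsLocalRing.ResidueField 𝒪))
    (𝒟 : ∀ ⦃A : Type⦄ [CommRing A] [IsLocalRing A] [Algebra 𝒪 A], GaloisRepAdic A → Prop)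
    (habs : ρbar.IsAbsolutelyIrreducible)
    (h𝒟 : GaloisRep.IsDeformationCondition 𝒪 𝒟)
    (hbar : 𝒟 (GaloisRepAdic.ofResidualGaloisRep ρbar))
    (hfin : GaloisRep.TangentFinite 𝒪 ρbar 𝒟) :
    Nonempty (GaloisRep.DeformationRingData 𝒪 ρbar 𝒟) := by
  obtain ⟨D, ⟨e0⟩⟩ := exists_rigidData ρbar habs
  have hp : (IsLocalRing.maximalIdeal 𝒪).IsPrincipal := IsPrincipalIdealRing.principal _
  have hcard := good_card ρbar 𝒟 hp h𝒟 hfin D e0
  have hgen := good_generators ρbar 𝒟 h𝒟 hfin D e0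
  obtain ⟨R, iR1, iR2, iR3, iR4, iR5, iR6, rR, hN, hres, hd, huniv⟩ :=
    GoodGlue.exists_universal_of h𝒟 e0 hbar hcard hgen
  exact ⟨{ R := R
           residue_surjective := hres
           absIrr := habs
           ρ := ofMat rR hN.cont
           isOfType := hd
           residual_isEquiv := hN.residual_isEquiv e0
           universal := huniv }⟩

end Fermat.Agent.S53
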