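-- Statement S56 (Taylor–Wiles primes: for both the strict-ordinary and the flat minimal deformation
-- problems there is `r` such that for every `n` there are `r` Taylor–Wiles primes of level `n` whose
-- deformation rings are quotients of `𝒪⟦x₁,…,x_r⟧`).
-- Proof: project P-S56 under `Fermat/Agent/S56x` (+ `Lib/{Ram,ModRep,ModIndex,HopfDiff}`, `Lib/CFT`):
--   (T1) tangent bound ⇒ power series surjection (`Top/PowerSeriesSurj`), dictionary (`Dict/*`),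
--   (B) Greenberg–Wiles incl. Tate's global Euler characteristic (`GW/*`, `Euler/*`),
--   (A) flat local count via Fontaine's ramification bound (`Hopf/*`, `Fontaine/*`, `Lib/Ram/*`, `Local/*`),
--   (C) local counts + assembly (`Local/*`, `Assembly/*`), (D) group theory (`Group/*`, `Kill/*`),
--   (E) Chebotarev (`Cheb/*`).
import Fermat.Statements.S56
import Fermat.Agent.S56x.Assembly.S56OfBlocks
import Fermat.Agent.S56x.GW.GWPackageFinal
import Fermat.Agent.S56x.Local.FlatCountMain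
import Fermat.Agent.S56x.Local.CW1FinalB
import Fermat.Agent.S56x.Local.CountQp2Closed

set_option autoImplicit false
set_option autoImplicit false
open Polynomial IsLocalRing
open ResidualGaloisRep

namespace Fermat.Agent.S56

theorem result
    {𝒪 : Type} [CommRing 𝒪] [IsDomain 𝒪] [IsDiscreteValuationRing 𝒪]
    [IsAdicComplete (maximalIdeal 𝒪) 𝒪] [Finite (ResidueField 𝒪)]
    (p : ℕ) [Fact p.Prime] (hp2 : p ≠ 2) (hp𝒪 : (p : 𝒪) ∈ maximalIdeal 𝒪)
    (ρbar : ResidualGaloisRep (ResidueField 𝒪))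
    (habs : ρbar.IsAbsolutelyIrreducible)
    (hdet : (GaloisRepAdic.ofResidualGaloisRep ρbar).DetIsCyclotomic p)
    (hsplit : ∀ σ : AlgebraicClosure ℚ ≃ₐ[ℚ] AlgebraicClosure ℚ,
      ∃ α β : ResidueField 𝒪, LinearMap.charpoly (ρbar.ρ σ) = (X - C α) * (X - C β))
    (hTW : ∀ (K : Type) [Field K] [Algebra (ResidueField 𝒪) K]
      (G : Subgroup (AlgebraicClosure ℚ ≃ₐ[ℚ] AlgebraicClosure ℚ)), G.index = 2 →
      ∀ V : Submodule K (ρbar.baseChange K).V,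
        (∀ σ ∈ G, ∀ x ∈ V, (ρbar.baseChange K).ρ σ x ∈ V) → V = ⊥ ∨ V = ⊤)
    (S Smin : Finset ℕ) (hpSmin : p ∈ Smin) (hSmin : Smin ⊆ S) (hS : ∀ q ∈ S, q.Prime)
    (hmin : ∀ q : ℕ, q.Prime → q ≠ p → (q ∈ Smin ↔ ¬ ρbar.IsUnramifiedAt q)) :
    (∃ r : ℕ, ∀ n : ℕ, ∃ qv : Fin r → ℕ, Function.Injective qv ∧
      (∀ i, (qv i).Prime ∧ qv i ∉ S ∧ p ^ (n + 1) ∣ qv i - 1) ∧
      (∀ i, ∀ P : ValuationSubring (AlgebraicClosure ℚ), P.LiesOverPrime (qv i) →
        ∀ φ : AlgebraicClosure ℚ ≃ₐ[ℚ] AlgebraicClosure ℚ, P.IsFrobeniusAt φ (qv i) →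
          ∃ α β : ResidueField 𝒪, α ≠ β ∧ LinearMap.charpoly (ρbar.ρ φ) = (X - C α) * (X - C β)) ∧
      ∀ DQ : GaloisRep.DeformationRingData 𝒪 ρbar (fun _A _ _ _ ρ =>
          GaloisRep.strictOrdinaryCondition 𝒪 p (Smin ∪ Finset.univ.image qv) ρ ∧
            ∀ q ∈ Smin, q.Prime → q ≠ p → ρ.IsUnipotentOnInertiaAt q),
        ∃ γ : MvPowerSeries (Fin r) 𝒪 →ₐ[𝒪] DQ.R, Function.Surjective γ) ∧
    (∃ r : ℕ, ∀ n : ℕ, ∃ qv : Fin r → ℕ, Function.Injective qv ∧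
      (∀ i, (qv i).Prime ∧ qv i ∉ S ∧ p ^ (n + 1) ∣ qv i - 1) ∧
      (∀ i, ∀ P : ValuationSubring (AlgebraicClosure ℚ), P.LiesOverPrime (qv i) →
        ∀ φ : AlgebraicClosure ℚ ≃ₐ[ℚ] AlgebraicClosure ℚ, P.IsFrobeniusAt φ (qv i) →
          ∃ α β : ResidueField 𝒪, α ≠ β ∧ LinearMap.charpoly (ρbar.ρ φ) = (X - C α) * (X - C β)) ∧
      ∀ DQ : GaloisRep.DeformationRingData 𝒪 ρbar (fun _A _ _ _ ρ =>
          GaloisRep.flatCondition 𝒪 p (Smin ∪ Finset.univ.image qv) ρ ∧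
            ∀ q ∈ Smin, q.Prime → q ≠ p → ρ.IsUnipotentOnInertiaAt q),
        ∃ γ : MvPowerSeries (Fin r) 𝒪 →ₐ[𝒪] DQ.R, Function.Surjective γ) :=
  Fermat.Agent.S56x.Assembly.s56_of_gw_flat p hp2 hp𝒪 ρbar habs hdet hsplit hTW S Smin
    hpSmin hSmin hS hmin (Fermat.Agent.S56x.GW.PackageFinal.gwPackage hp2)
    (Fermat.Agent.S56x.Local.FlatCountMain.flatCountStatementSplit_of_counts p _
      (Fermat.Agent.S56x.Local.CW1FinalB.cw1Statement p _)
      (Fermat.Agent.S56x.Local.CW1FinalB.cw0Statement p _)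
      (Fermat.Agent.S56x.Local.CountQp2Closed.countQp2Statement p _))

end Fermat.Agent.S56
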